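/-
S55 (Poitou–Tate), layer G, block REC — CLOSED FORM (glue, helper964).

Everything UNCONDITIONAL (odd prime `p`):

* `nonempty_localInvSystem : Nonempty LocalInvSystem`   (REC-LOC leaves + layer L `InvSpec`);
* `localInvSystem : LocalInvSystem`                     (a fixed choice, for consumers such as FR);
* `hassePrinciple p hp2 : HassePrincipleSpec p`          (adapter HP + layer G upper half);
* `reciprocity p hp2 I : ReciprocitySpec I p`            (for EVERY local invariant system `I`).
-/
import Fermat.Agent.S55.G.Rec.Reciprocity
import Fermat.Agent.S55.G.Rec.HP.Main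
import Fermat.Agent.S55.G.AllH604
import Fermat.Agent.S55.G.Rec.Loc.Glue
import Fermat.Agent.S55.G.Rec.Loc.OpenH478
import Fermat.Agent.S55.G.Rec.Loc.DescentH894
import Fermat.Agent.S55.G.Rec.Loc.UpH839
import Fermat.Agent.S55.G.Rec.Loc.DownH363
import Fermat.Agent.S55.G.Rec.Loc.RefineH123
import Fermat.Agent.S55.G.Rec.Loc.ResH480
import Fermat.Agent.S55.G.Rec.Loc.H483.UnramClosed
import Fermat.Agent.S55.G.Rec.Loc.UnifH544
import Fermat.Agent.S55.L.InvClosed

set_option autoImplicit false

noncomputable section

namespace Fermat.Agent.S55.G.Rec.H964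

open Fermat.Agent.S55 Fermat.Agent.S55.G Fermat.Agent.S55.G.Rec

/-- **REC-LOC, closed**: a system of absolute local invariant maps exists. -/
theorem nonempty_localInvSystem : Nonempty LocalInvSystem :=
  Loc.nonempty_localInvSystem_of L.Closed.inv Loc.H478.openSpec Loc.H894.descent Loc.H839.up
    Loc.H363.down Loc.H123.refine123 (Loc.H480.res_of Loc.H478.openSpec Loc.H894.descent)
    Loc.H483.unram Loc.H544.unif

/-- A fixed system of absolute local invariant maps. -/
def localInvSystem : LocalInvSystem := Classical.choice nonempty_localInvSystem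

/-- **HP, closed**: the Hasse principle for the `p`-primary part of the Brauer group. -/
theorem hassePrinciple (p : ℕ) [Fact p.Prime] (hp2 : p ≠ 2) : HassePrincipleSpec p :=
  HP.hassePrinciple p hp2 AllH604.pClassUpper AllH604.classShortExact AllH604.shapiroJ

/-- **REC, closed**: the reciprocity law (`p`-primary part, `p` odd) for every local invariant
system. -/
theorem reciprocity (p : ℕ) [Fact p.Prime] (hp2 : p ≠ 2) (I : LocalInvSystem) :
    ReciprocitySpec I p :=
  Rec.reciprocity I p hp2 (hassePrinciple p hp2)

/-- The reciprocity law for the fixed system `localInvSystem`. -/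
theorem reciprocity_fixed (p : ℕ) [Fact p.Prime] (hp2 : p ≠ 2) :
    ReciprocitySpec localInvSystem p :=
  reciprocity p hp2 localInvSystem

end Fermat.Agent.S55.G.Rec.H964
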